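import Fermat.Agent.LT.T7.H817.NonVanAdapt
import Fermat.Agent.LT.T7.H616.ClassModelTop
import Fermat.Agent.LT.T7.H930.CMLeaves
import Fermat.Agent.LT.T7.H887.CommGI
import Fermat.Agent.LT.T7.H440.Dict
import Fermat.Agent.LT.T7.H963.Bridge616
import Fermat.Agent.LT.T7.H389.Sigma
import Fermat.Agent.LT.T7.H701.IwSys

/-!
# Row LT, tower T7, node T7.L2.2.N `NonVanC561` (helper817, registry row 2191, OFF-MAIN)

THE STATE OF THE NODE: everything which is published and proved is plugged in ONE import closure;
what remains are the open leaves of the cut of helper616 (`ClassModelSpec.lean`, sha 8568bae7) in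
the form of helper963 (`Simple.lean`).

    classModelC_open817 : H963.ClassFinC K' → H963.ClassLinC K' → H963.ClassOpC K'
        → H963.SimpleC K' → CM616.NontrivC616 K K' → CM616.MulGC616 K K' → SU736.ClassModelC K K'
    nonVanC_open817     : (the same six) → SU736.NonVanC K K'
    nonVanC561_open817  : (the same six) → H561.NonVanC561 K K'

Plugged: CM.04, CM.06, CM.07, CM.08 (helper930 `CMLeaves.lean`), CM.05 (helper887 `CommGI.lean`),
CM.11 (helper440 `Dict.lean`), the bridges CM.01, CM.03, CM.09 (helper963 `Bridge616.lean`), the top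
`classModelC_of616` (helper616), `SU736.nonVanC_of` (helper736), `sigmaC389` (helper389),
`iwSysC701` (helper701), the adapter `nonVanC561_of817`.  Nothing is assumed; no hole.
-/

set_option autoImplicit false

namespace Fermat.Agent.LT.T7.H817

open Fermat.Agent.LT.T7

variable (K K' : Type) [Field K] [NumberField K] [Field K'] [NumberField K'] [Algebra K K']

/-- The node `ClassModelC` of helper736 from its six open leaves. -/
theorem classModelC_open817 (hFin : H963.ClassFinC K') (hLin : H963.ClassLinC K')
    (hOp : H963.ClassOpC K') (hSim : H963.SimpleC K') (hNon : CM616.NontrivC616 K K')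
    (hMul : CM616.MulGC616 K K') : SU736.ClassModelC K K' :=
  CM616.classModelC_of616 (H963.finDimC616_of hFin) hNon (H963.stabGC616_of hOp)
    H930.stabSC930 (H887.commGIC887 K K') H930.locCommC930 H930.locMoveC930 H930.powC930
    (H963.simpleC616_of hSim hLin hOp) hMul
    (H440.dictC_of440 K K' (H963.stabGC616_of hOp) H930.stabSC930)

/-- The node `NonVanC` of helper736 from the six open leaves. -/
theorem nonVanC_open817 (hFin : H963.ClassFinC K') (hLin : H963.ClassLinC K')
    (hOp : H963.ClassOpC K') (hSim : H963.SimpleC K') (hNon : CM616.NontrivC616 K K')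
    (hMul : CM616.MulGC616 K K') : SU736.NonVanC K K' :=
  SU736.nonVanC_of (classModelC_open817 K K' hFin hLin hOp hSim hNon hMul)

/-- **Registry row 2191**: the node `NonVanC561` of helper561 from the six open leaves. -/
theorem nonVanC561_open817 (hFin : H963.ClassFinC K') (hLin : H963.ClassLinC K')
    (hOp : H963.ClassOpC K') (hSim : H963.SimpleC K') (hNon : CM616.NontrivC616 K K')
    (hMul : CM616.MulGC616 K K') : H561.NonVanC561 K K' :=
  nonVanC561_of817 K K' (nonVanC_open817 K K' hFin hLin hOp hSim hNon hMul)
    (H389.sigmaC389 K K') (H701.iwSysC701 K')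

end Fermat.Agent.LT.T7.H817
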