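import Fermat.Agent.LT.T7.H817.ClassModelUCore
import Fermat.Agent.LT.T7.H963.SimpleClosed
import Fermat.Agent.LT.T7.H296.Nontriv
import Fermat.Agent.LT.T7.H296.ClassModelULeaves
import Fermat.Agent.LT.T7.H228.MulGU

/-!
# Row LT, tower T7, node `ClassModelUC` / `NonVanCoreC` (CORE form over `K'` alone): CLOSED

OFF-MAIN (helper817).  UNCONDITIONAL, in ONE import closure (byte copies of the owners' files):

    classModelUC_closed817 (K') : SU736.ClassModelUC K'     (node of helper736, `T7/H736/UpS.lean`)
    nonVanCoreC_closed817  (K') : H29.NonVanCoreC K'        (node of helper29, `T7/H29/UpCore2.lean`)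

by the top `classModelUC_of675` of helper675 with the eleven core leaves:
CM.01, CM.03, CM.09 `finDimUC675_963`, `stabGUC675_963`, `simpleUC675_963` (helper963),
CM.02 `nontrivUC296`, CM.06, CM.07, CM.08 `locCommUC296`, `locMoveUC296`, `powUC296` (helper296),
CM.10 `mulGUC228` (helper228), CM.04, CM.05, CM.11 `stabSUC817`, `commGIUC817`, `dictUC_of817`
(`ClassModelUCore.lean`: ports of helper930, helper887, helper440).
The core node serves BOTH steps (cubic `K'/K` and quadratic `F/ℚ`): `H29.nonVanC_of_core`,
`H29.traceWordsQRegP_ofCore2`.  Nothing is assumed; no hole.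
-/

set_option autoImplicit false

namespace Fermat.Agent.LT.T7.H817

open Fermat.Agent.LT.T7

variable (K' : Type) [Field K'] [NumberField K']

/-- **THE NODE `ClassModelUC` (core form), CLOSED.** -/
theorem classModelUC_closed817 : SU736.ClassModelUC K' :=
  CMU675.classModelUC_of675 (H963.finDimUC675_963 K') (H296.nontrivUC296 (K' := K'))
    (H963.stabGUC675_963 K') (stabSUC817 K') (commGIUC817 K')
    (H296.locCommUC296 (K' := K')) (H296.locMoveUC296 (K' := K')) (H296.powUC296 (K' := K'))
    (H963.simpleUC675_963 K') (H228.mulGUC228 (K' := K'))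
    (dictUC_of817 K' (H963.stabGUC675_963 K'))

/-- **THE NODE `NonVanCoreC` (core form), CLOSED.** -/
theorem nonVanCoreC_closed817 : H29.NonVanCoreC K' :=
  SU736.nonVanCoreC_of (classModelUC_closed817 K')

end Fermat.Agent.LT.T7.H817
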