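import Mathlib
import Fermat.Agent.LT.T7.H675.ClassModelU
import Fermat.Agent.LT.T7.H930.RsigUp
import Fermat.Agent.LT.T7.H887.CommGI
import Fermat.Agent.LT.T7.H440.Dict

/-!
# Row LT, tower T7, node `ClassModelUC` (CORE form): leaves CM.04, CM.05, CM.11 (helper817)

OFF-MAIN.  ADDITIVE.  Statements: `T7/H675/ClassModelU.lean` (helper675, sha256 9a359011),
byte-identical copy.  VERBATIM, in the core form over `K'` alone (`H29.UpData`):

* `stabSUC817  : CMU675.StabSUC675 K'`  (CM.04, UNCONDITIONAL: `up_class_Rsig930`,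
  `up_class_RsigInv930` of helper930);
* `commGIUC817 : CMU675.CommGIUC675 K'` (CM.05, UNCONDITIONAL: port of `commGIC887`, helper887,
  with its local lemmas);
* `dictUC_of817 : CMU675.StabGUC675 K' → CMU675.DictUC675 K'` (CM.11: port of `dictC_of440`,
  helper440, with its abstract trace formula; CM.04 is plugged).

Nothing is assumed; no hole.
-/

set_option autoImplicit false

open AutomorphicForm IsDedekindDomain NumberField MeasureTheory
open scoped ComplexConjugate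

noncomputable section

namespace Fermat.Agent.LT.T7.H817

open Fermat.Agent.LT.H556 Fermat.Agent.LT.H556.A0 Fermat.Agent.LT Fermat.Agent.LT.T7
  Fermat.Agent.LT.T7.CM616 Fermat.Agent.LT.T7.CMU675 Fermat.Agent.LT.H129

attribute [local instance] Fermat.Agent.LT.T5.instMeasurableSpaceG

variable (K' : Type) [Field K'] [NumberField K']

/-- **LEAF CM.04 = STAB-S, core form.** -/
theorem stabSUC817 : StabSUC675 K' := by
  intro ℓ Φ U hctx ψ hψ
  have hB : T5.AutPreserves U.s U.𝔑₀ U.R'.μ U.R'.r := hctx.stable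
  exact ⟨H930.up_class_Rsig930 hB hctx.data hψ, H930.up_class_RsigInv930 hB hctx.data hψ⟩

/-- **LEAF CM.05 = COMM-GI, core form** (the proof of helper887). -/
theorem commGIUC817 : CommGIUC675 K' := by
  intro ℓ Φ U hctx g Hg hbad hsys j hj H hH ψ hψ hHψ x
  have hjl : j < U.l := by rw [hctx.data.deg]; exact hj
  have hgv : TrivAtFin (U.o j) g := hbad.2 (U.o j) (Or.inr ⟨j, hjl, rfl⟩)
  have hred : ∀ h ∈ Hg, ∃ h₀ : G K', finCompHom129 (U.o j) h₀ = 1 ∧
      ∀ f : G K' → ℂ, IsLevelInv616 U.𝔑₀ f → ∀ y : G K', f (y * h) = f (y * h₀) := by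
    intro h hh
    obtain ⟨u₁, u₂, hu₁, hu₂, rfl⟩ := hsys.1 h hh
    obtain ⟨h₀, u'', h1, hu'', heq⟩ := H887.exists_reduction887 (u₂ := u₂) hgv hu₁
    refine ⟨h₀, h1, fun f hf y => ?_⟩
    rw [heq, ← mul_assoc, ← mul_assoc, hf u₂ hu₂, hf u'' hu'']
  show (∑ h ∈ Hg, ∑ k ∈ H, ψ (x * h * k)) = ∑ k ∈ H, ∑ h ∈ Hg, ψ (x * k * h)
  conv_rhs => rw [Finset.sum_comm]
  refine Finset.sum_congr rfl fun h hh => ?_
  obtain ⟨h₀, h1, hinv⟩ := hred h hh
  have e1 : ∑ k ∈ H, ψ (x * h * k) = ∑ k ∈ H, ψ (x * h₀ * k) := hinv (cosetOp H ψ) hHψ x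
  rw [e1]
  refine Finset.sum_congr rfl fun k hk => ?_
  have hcomm : h₀ * k = k * h₀ := H887.commute_of_triv_of_local887 h1 (hH k hk)
  rw [hinv ψ hψ (x * k), mul_assoc x h₀ k, hcomm, ← mul_assoc]

/-- **LEAF CM.11 = DICT, core form**, from the stability leaf CM.03 (the proof of helper440;
CM.04 is `stabSUC817`). -/
theorem dictUC_of817 (hG : StabGUC675 K') : DictUC675 K' := by
  intro ℓ Φ U hctx g Hg hbad hsys q J hq
  have hS := stabSUC817 K'
  have hF : T5.IsFrame U.R'.μ U.R'.F := hctx.data.frame'.frame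
  have hGp : ∀ ψ ∈ clsU675 U ℓ Φ, cosetLin616 Hg ψ ∈ clsU675 U ℓ Φ :=
    H440.mem_cls_of_map440 (cosetLin616 Hg) (fun ψ hψ => hG ℓ Φ U hctx g Hg hbad hsys ψ hψ)
  have hSp : ∀ ψ ∈ clsU675 U ℓ Φ, rsigLin616 U.s ψ ∈ clsU675 U ℓ Φ :=
    H440.mem_cls_of_map440 (rsigLin616 U.s) (fun ψ hψ => (hS ℓ Φ U hctx ψ hψ).1)
  have hmem : ∀ j : J, q j ∈ clsU675 U ℓ Φ := fun j =>
    Submodule.subset_span (hq.eig j j.2)
  have hcont : ∀ j : J, Continuous (q j) := fun j => (hq.eig j j.2).inv.cusp.cont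
  have hbdd : ∀ j : J, ∃ C : ℝ, ∀ x, ‖q j x‖ ≤ C := fun j => (hq.eig j j.2).inv.cusp.bdd
  -- the family spans
  have hle : clsU675 U ℓ Φ ≤ Submodule.span ℂ (Set.range (fun j : J => q j)) := by
    show Submodule.span ℂ {ψ | IsEigFn U.𝔑₀ U.R'.r ℓ U.o ψ (eigOf Φ)}
      ≤ Submodule.span ℂ (Set.range (fun j : J => q j))
    rw [Submodule.span_le]
    intro ψ hψ
    obtain ⟨a, ha⟩ := hq.span ψ hψ
    rw [SetLike.mem_coe, Submodule.mem_span_range_iff_exists_fun]
    refine ⟨fun j => a j, ?_⟩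
    funext x
    rw [ha x, Finset.sum_apply, ← Finset.sum_coe_sort J (fun j => a j * q j x)]
    rfl
  -- the operator of the model
  have hval : ∀ v : clsU675 U ℓ Φ,
      (((restr616 (clsU675 U ℓ Φ) (cosetLin616 Hg) * sOpU675 U ℓ Φ) v : clsU675 U ℓ Φ) :
        G K' → ℂ) = cosetOp Hg (T5.Rsig U.s v) := by
    intro v
    rw [Module.End.mul_apply]
    have e1 : sOpU675 U ℓ Φ = (rsigLin616 U.s).restrict hSp := by
      show restr616 (clsU675 U ℓ Φ) (rsigLin616 U.s) = _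
      exact restr616_eq (clsU675 U ℓ Φ) (rsigLin616 U.s) hSp
    have e2 : restr616 (clsU675 U ℓ Φ) (cosetLin616 Hg) = (cosetLin616 Hg).restrict hGp :=
      restr616_eq (clsU675 U ℓ Φ) (cosetLin616 Hg) hGp
    rw [e1, e2]
    rfl
  -- the abstract trace formula
  have key := H440.trace_eq_sum_dual440 (V := clsU675 U ℓ Φ) (ι := J)
    (fun j => (⟨q j, hmem j⟩ : clsU675 U ℓ Φ))
    (fun j v => T5.innerD U.R'.μ U.R'.F (v : G K' → ℂ) (q j)) ?_ ?_
    (restr616 (clsU675 U ℓ Φ) (cosetLin616 Hg) * sOpU675 U ℓ Φ)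
  · rw [key]
    show (∑ j ∈ J, T5.innerD U.R'.μ U.R'.F (cosetOp Hg (T5.Rsig U.s (q j))) (q j)) = _
    rw [← Finset.sum_coe_sort]
    refine Finset.sum_congr rfl fun j _ => ?_
    rw [hval]
  · intro a j
    have h1 : ((∑ i, a i • (⟨q i, hmem i⟩ : clsU675 U ℓ Φ) : clsU675 U ℓ Φ) : G K' → ℂ)
        = fun x => ∑ i : J, a i * q i x := by
      funext x
      rw [Submodule.coe_sum, Finset.sum_apply]
      rfl
    simp only [h1]
    rw [H440.innerD_sum440 hF (fun i : J => q i) hcont hbdd (hcont j) (hbdd j) a]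
    rw [Finset.sum_eq_single j]
    · rw [hq.norm j j.2, mul_one]
    · intro i _ hij
      rw [hq.orth i i.2 j j.2 (fun h => hij (Subtype.ext h)), mul_zero]
    · intro h
      exact absurd (Finset.mem_univ j) h
  · intro v
    obtain ⟨a, ha⟩ := (Submodule.mem_span_range_iff_exists_fun ℂ).1 (hle v.2)
    refine ⟨a, Subtype.ext ?_⟩
    rw [← ha, Submodule.coe_sum]
    rfl

end Fermat.Agent.LT.T7.H817

end
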