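import Mathlib
import Fermat.Agent.LT.T7.H561.BlocksSpec
import Fermat.Agent.LT.T7.H736.SpecUp
import Fermat.Agent.LT.T7.H534.SpecDownSpec

/-!
# Row LT, tower T7, node T7.L2.2.N `NonVanC561` (registry 2191, helper817): ADAPTER

OFF-MAIN.  Proved statements only; no new Prop is introduced.

    nonVanC561_of817 : SU736.NonVanC K K' → H561.SigmaC561 K K' → SD534.IwSysC K'
                         → H561.NonVanC561 K K'

The node `NonVanC561` of the cut of helper561 (`T7/H561/SpecUpSpec.lean`) is the node `NonVanC`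
of the cut of helper736 (`T7/H736/SpecUp.lean`) read at `k = 0`, `m = 0`:

* a class basis `IsClassBasis561 Dt ℓ C n v` with `C` agreeing with `eigOf Φ` outside `S'` is a
  class basis `SU736.IsClassBasisOn 𝔑₀ R' ℓ o (eigOf Φ) q (range n)` (`IsEigFn` reads the
  eigen-data only at the places prime to the level, i.e. outside `S'`, and at positive radii);
* `R(σ)` preserves the class of `Φ` (`SigmaC561`, leaf of the cut of `BlocksC561`), so (OP-up)
  applies to `R(σ) v_a` with the empty word, `k = 0`, `m = 0`: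
  `R(φ' g [] 0 0) R(σ) v_a = c_g(C) · [U g U] R(σ) v_a` (an Iwahori coset system and a scalar
  uniformiser at `o 0` exist: `SD534.IwSysC`, closed by helper510);
* `c_g(C) ≠ 0` (`base_ne`), and the base stability of helper736 (`T5.AutPreserves` for `𝔑₀`)
  follows from `BaseStable561` and `IsCompData.aut` for the bad element `1`.

So ONE proof of the non-vanishing (the node `ClassModelC` of helper736) serves both cuts.
-/

set_option autoImplicit false
set_option linter.unusedSectionVars false

open AutomorphicForm IsDedekindDomain NumberField MeasureTheory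
open scoped ComplexConjugate

noncomputable section

namespace Fermat.Agent.LT.T7.H817

open Fermat.Agent.LT.H556 Fermat.Agent.LT.H556.A0 Fermat.Agent.LT.T7

attribute [local instance] Fermat.Agent.LT.T5.instMeasurableSpaceG

section OneField

variable {K : Type} [Field K] [NumberField K]

theorem agreeOut_symm817 {S : Finset (HeightOneSpectrum (𝓞 K))} {D D' : EigData K}
    (h : D.AgreeOut S D') : D'.AgreeOut S D :=
  ⟨fun w hw => ⟨(h.1 w hw).1.symm, (h.1 w hw).2.symm⟩, fun w d hd => (h.2 w d hd).symm⟩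

theorem agreeOut_trans817 {S : Finset (HeightOneSpectrum (𝓞 K))} {D D' D'' : EigData K}
    (h : D.AgreeOut S D') (h' : D'.AgreeOut S D'') : D.AgreeOut S D'' :=
  ⟨fun w hw => ⟨(h.1 w hw).1.trans (h'.1 w hw).1, (h.1 w hw).2.trans (h'.1 w hw).2⟩,
    fun w d hd => (h.2 w d hd).trans (h'.2 w d hd)⟩

/-- `IsEigFn` reads the eigen-data only outside the level and at positive radii. -/
theorem isEigFn_congr817 {𝔫 : Ideal (𝓞 K)} {r : G K} {l : ℕ}
    {o : ℕ → HeightOneSpectrum (𝓞 K)} {ψ : G K → ℂ} {C C' : EigData K}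
    {S : Finset (HeightOneSpectrum (𝓞 K))}
    (hS : ∀ w : HeightOneSpectrum (𝓞 K), w ∈ S ↔ w.asIdeal ∣ 𝔫)
    (hC : C.AgreeOut S C') (h : IsEigFn 𝔫 r l o ψ C) : IsEigFn 𝔫 r l o ψ C' where
  inv := h.inv
  hecke := fun v hv => by
    have hv' : v ∉ S := fun hmem => hv ((hS v).1 hmem)
    rw [← (hC.1 v hv').1, ← (hC.1 v hv').2]
    exact h.hecke v hv
  mean := fun w d hd Y hY g => by
    rw [← hC.2 w d hd]
    exact h.mean w d hd Y hY g

theorem wordEv_nil817 (D : EigData K) : wordEv ([] : List (Gen K)) D = 1 := by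
  simp [wordEv]

theorem innerD_const_mul817 (μ : Measure (G K)) (F : Set (G K)) (c : ℂ) (e f : G K → ℂ) :
    T5.innerD μ F (fun x => c * e x) f = c * T5.innerD μ F e f := by
  unfold T5.innerD
  rw [← integral_const_mul]
  refine integral_congr_ae (Filter.Eventually.of_forall fun x => ?_)
  simp only [mul_assoc]

end OneField

section TwoFields

variable {K K' : Type} [Field K] [NumberField K] [Field K'] [NumberField K'] [Algebra K K']

/-- The identity is a bad element. -/
theorem isBad_one817 (Dt : L2Data K K') : Dt.IsBad (1 : G K') := by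
  refine ⟨fun w i j => ?_, fun v _ => ?_⟩
  · rw [Units.val_one]
    by_cases hij : i = j
    · subst hij
      simp only [Matrix.one_apply_eq]
      rfl
    · simp only [Matrix.one_apply_ne hij]
      rfl
  · unfold TrivAtFin finComp
    ext i j
    rw [Units.val_one]
    by_cases hij : i = j
    · subst hij
      simp only [Matrix.one_apply_eq]
      rfl
    · simp only [Matrix.one_apply_ne hij]
      rfl

/-- The base stability of helper736 from the base stability of helper561. -/
theorem baseStable_of561_817 {ℓ : ℕ} {Φ : HeckeEigensystem K' ℂ} {Dt : L2Data K K'}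
    (hDt : IsL2Data ℓ Φ Dt) (hst : H561.BaseStable561 Dt) : SU736.BaseStable Dt := by
  have haut := (hDt.comp 1 (isBad_one817 Dt)).aut
  exact
    { left_inverse := haut.left_inverse
      right_inverse := haut.right_inverse
      rat := haut.rat
      cont := haut.cont
      measure := haut.measure
      ray := haut.ray
      slab := haut.slab
      level := hst
      arch := haut.arch }

/-- The base stability of helper561 from the base stability of helper736. -/
theorem baseStable561_of_817 {Dt : L2Data K K'} (hst : SU736.BaseStable Dt) :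
    H561.BaseStable561 Dt :=
  hst.level

/-- A class basis of helper561 is a class basis of helper736. -/
theorem isClassBasisOn_of561_817 {ℓ : ℕ} {Φ : HeckeEigensystem K' ℂ} {Dt : L2Data K K'}
    (hDt : IsL2Data ℓ Φ Dt) {C : EigData K'} {n : ℕ} {v : Fin n → G K' → ℂ}
    (hC : C.AgreeOut Dt.S' (eigOf Φ)) (hv : H561.IsClassBasis561 Dt ℓ C n v) :
    SU736.IsClassBasisOn Dt.𝔑₀ Dt.R' ℓ Dt.o (eigOf Φ)
      (fun j => if h : j < n then v ⟨j, h⟩ else 0) (Finset.range n) where
  eig := fun j hj => by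
    have hj' : j < n := Finset.mem_range.1 hj
    simp only [hj', dif_pos]
    exact isEigFn_congr817 hDt.mem_S' hC (hv.eig ⟨j, hj'⟩)
  orth := fun i hi j hj hij => by
    have hi' : i < n := Finset.mem_range.1 hi
    have hj' : j < n := Finset.mem_range.1 hj
    simp only [hi', hj', dif_pos]
    rw [hv.orth ⟨i, hi'⟩ ⟨j, hj'⟩, if_neg]
    intro h
    exact hij (congrArg Fin.val h)
  norm := fun j hj => by
    have hj' : j < n := Finset.mem_range.1 hj
    simp only [hj', dif_pos]
    rw [hv.orth ⟨j, hj'⟩ ⟨j, hj'⟩, if_pos rfl]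
  span := fun ψ hψ => by
    obtain ⟨c, hc⟩ := hv.span ψ (eigOf Φ) hψ (agreeOut_symm817 hC)
    refine ⟨fun j => if h : j < n then c ⟨j, h⟩ else 0, fun x => ?_⟩
    rw [hc x, Finset.sum_range]
    refine Finset.sum_congr rfl fun a _ => ?_
    simp only [a.2, dif_pos, Fin.eta]

/-- The twisted trace of helper736 in a class basis of helper561. -/
theorem twTrace_eq817 (s : T5.AdelicAut K') (R : Frame5 K') (Hg : Finset (G K')) {n : ℕ}
    (v : Fin n → G K' → ℂ) :
    SU736.twTrace s R Hg (fun j => if h : j < n then v ⟨j, h⟩ else 0) (Finset.range n)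
      = ∑ a, T5.innerD R.μ R.F (cosetOp Hg (T5.Rsig s (v a))) (v a) := by
  unfold SU736.twTrace
  rw [Finset.sum_range]
  refine Finset.sum_congr rfl fun a _ => ?_
  simp only [a.2, dif_pos, Fin.eta]

variable (K K')

/-- **THE ADAPTER**: the node `NonVanC561` of the cut of helper561 from the node `NonVanC` of the
cut of helper736, the leaf `SigmaC561` and the closed leaf `SD534.IwSysC`. -/
theorem nonVanC561_of817 (hN : SU736.NonVanC K K') (hσ : H561.SigmaC561 K K')
    (hI : SD534.IwSysC K') : H561.NonVanC561 K K' := by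
  intro ℓ hcyc hℓ hcplx Φ hΦ hconst Dt hDt hst
  obtain ⟨g, Hg, hg, hHg, hne⟩ :=
    hN ℓ hcyc hℓ hcplx Φ hΦ hconst Dt hDt (baseStable_of561_817 hDt hst)
  obtain ⟨σC, hσ1, hσ2, hσ3⟩ := hσ ℓ hcyc hℓ hcplx Φ hΦ hconst Dt hDt hst
  obtain ⟨⟨H, hH⟩, ⟨z, hz⟩⟩ := hI (Dt.o 0)
  refine ⟨g, 0, 0, hg, fun C n v hC hv => ?_⟩
  have hbasis := isClassBasisOn_of561_817 hDt hC hv
  have htw := hne _ _ hbasis
  rw [twTrace_eq817] at htw
  have hc : Dt.c g C ≠ 0 := hDt.base_ne g hg C hC
  -- `R(σ)` preserves the class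
  have hsig : ∀ a, IsEigFn Dt.𝔑₀ Dt.R'.r ℓ Dt.o (T5.Rsig Dt.s (v a)) C := fun a =>
    isEigFn_congr817 hDt.mem_S'
      (agreeOut_trans817 (agreeOut_trans817 (hσ1 C (eigOf Φ) hC) hσ3) (agreeOut_symm817 hC))
      (hσ2 (v a) C (hv.eig a))
  -- (OP-up) at the empty word, `k = 0`, `m = 0`
  have hop : ∀ a, T5.Rconv Dt.R'.μ (Dt.φ' g [] 0 0) (T5.Rsig Dt.s (v a))
      = fun x => Dt.c g C * cosetOp Hg (T5.Rsig Dt.s (v a)) x := fun a => by
    funext x
    have h := hDt.op_up g [] 0 0 hg (fun x hx => absurd hx (List.not_mem_nil))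
      (T5.Rsig Dt.s (v a)) C (hsig a) Hg H z hHg hH hz x
    rw [h, wordEv_nil817, one_mul]
    have hshift : shiftOp z 0 ((iwOp (Dt.o 0) H)^[0] (T5.Rsig Dt.s (v a)))
        = T5.Rsig Dt.s (v a) := by
      funext y
      simp [shiftOp]
    rw [hshift]
  have hsum : (∑ a, T5.innerD Dt.R'.μ Dt.R'.F
      (T5.Rconv Dt.R'.μ (Dt.φ' g [] 0 0) (T5.Rsig Dt.s (v a))) (v a))
      = Dt.c g C * ∑ a, T5.innerD Dt.R'.μ Dt.R'.F (cosetOp Hg (T5.Rsig Dt.s (v a))) (v a) := by
    rw [Finset.mul_sum]
    refine Finset.sum_congr rfl fun a _ => ?_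
    rw [hop a, innerD_const_mul817]
  rw [hsum]
  exact mul_ne_zero hc htw

end TwoFields

end Fermat.Agent.LT.T7.H817

end
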